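import Mathlib
import Fermat.Agent.LT.T2.H228.ConvSpec

/-!
# Row LT, tower T2, leaf T2.02c `Leaf02c` (helper981): the adjoint of `conv F f` is `conv F (adj f)`

OFF-MAIN.  Proves `Fermat.Agent.LT.T2.H228.Leaf02c K` VERBATIM (sub-spec
`Fermat/Agent/LT/T2/H228/ConvSpec.lean` of helper228@40fe6cf64, sha256 `d808ff41…`), against the CURRENT
architect bytes `Fermat/Agent/LT/T2/Spec.lean` v3 of helper130 (sha256 `b934629a…`:
`conv F f φ x = ∫ φ (x h) f h dμ(h)` over the whole group, `f` continuous with compact support).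

## Proof

* `unfold981` (Mathlib only): `G` a second countable topological group with Borel structure,
  `μ` left invariant and σ-finite, `Δ` a countable subgroup, `D` a strict measurable fundamental
  domain of `Δ` (left translations), `Φ` on `G × G` invariant under the diagonal left action of
  `Δ` and integrable on `D × G`.  Then `∫_D ∫_G Φ(x, y) dy dx = ∫_D ∫_G Φ(x, y) dx dy`.
  (`D × G` and `G × D` are two fundamental domains of the diagonal action on `G × G`:
  `IsFundamentalDomain.setIntegral_eq`; then Fubini.)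
* `exists_z981`: a central element `z` of `GL₂(𝔸_K)`, an archimedean positive scalar at ONE
  infinite place `w` (so every cusp function is invariant under `z`), with `‖det z‖_𝔸 = 2`.
* `delta981 z = GL₂(K) · z^ℤ` is a countable subgroup and the domain `F.D` of a frame is a strict
  fundamental domain of it in the whole group (`strict981`; uses `T1.AdNormC`: positivity,
  multiplicativity, product formula).
* `Φ(x, y) = φ(y) f(x⁻¹ y) conj ψ(x)` is continuous, invariant, and integrable on `D × G`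
  (bounded by `C ‖f(x⁻¹ y)‖`, shear map, `μ(D) < ∞`).  Left invariance of `μ` turns both sides of
  the leaf into the two iterated integrals of `Φ`.

Unimodularity is NOT needed for v3 (`conv` is an integral over the whole group); only
`T1Out.locComp` and `T1Out.adNorm` are used; the hypotheses `AdjTest228`, `ConvStable228` are not
used.
-/

set_option autoImplicit false

open IsDedekindDomain NumberField MeasureTheory AutomorphicForm
open Fermat.Agent.LT.H556.A0
open Fermat.Agent.LT

noncomputable section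

namespace Fermat.Agent.LT.T2.H981

section Abstract

variable {G : Type*} [Group G] [TopologicalSpace G] [IsTopologicalGroup G] [MeasurableSpace G]
  [BorelSpace G] [SecondCountableTopology G]

omit [SecondCountableTopology G] in
/-- The diagonal left action of a subgroup preserves the product of a left invariant measure
with itself. -/
theorem smulInvariant_prod981 (μ : Measure G) [SigmaFinite μ] [μ.IsMulLeftInvariant]
    (Δ : Subgroup G) : SMulInvariantMeasure Δ (G × G) (μ.prod μ) := by
  refine ⟨fun δ s hs => ?_⟩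
  have h1 : MeasurePreserving (fun x : G => (δ : G) * x) μ μ := measurePreserving_mul_left μ (δ : G)
  have h2 : MeasurePreserving (Prod.map (fun x : G => (δ : G) * x) (fun x : G => (δ : G) * x))
      (μ.prod μ) (μ.prod μ) := h1.prod h1
  have h3 : (fun z : G × G => δ • z) =
      Prod.map (fun x : G => (δ : G) * x) (fun x : G => (δ : G) * x) := by
    funext z
    rfl
  rw [h3]
  exact h2.measure_preimage hs.nullMeasurableSet

/-- **Unfolding**: for a strict fundamental domain `D` of a countable subgroup `Δ` and a function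
`Φ` on `G × G` invariant under the diagonal action of `Δ`, the integral over `D × G` equals the
integral over `G × D`. -/
theorem unfold981 (μ : Measure G) [SigmaFinite μ] [μ.IsMulLeftInvariant]
    (Δ : Subgroup G) [Countable Δ] (D : Set G) (hD : MeasurableSet D)
    (hstrict : ∀ g : G, ∃! δ : Δ, (δ : G) * g ∈ D)
    (Φ : G × G → ℂ) (hΦ : ∀ (δ : Δ) (x y : G), Φ ((δ : G) * x, (δ : G) * y) = Φ (x, y))
    (hint : IntegrableOn Φ (D ×ˢ Set.univ) (μ.prod μ)) :
    ∫ x in D, ∫ y, Φ (x, y) ∂μ ∂μ = ∫ y in D, ∫ x, Φ (x, y) ∂μ ∂μ := by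
  have := smulInvariant_prod981 μ Δ
  have hA : IsFundamentalDomain Δ (D ×ˢ (Set.univ : Set G)) (μ.prod μ) := by
    refine IsFundamentalDomain.mk' (hD.prod MeasurableSet.univ).nullMeasurableSet ?_
    rintro ⟨x, y⟩
    obtain ⟨δ, hδ, huniq⟩ := hstrict x
    refine ⟨δ, ⟨hδ, Set.mem_univ _⟩, fun δ' h' => huniq δ' h'.1⟩
  have hB : IsFundamentalDomain Δ ((Set.univ : Set G) ×ˢ D) (μ.prod μ) := by
    refine IsFundamentalDomain.mk' (MeasurableSet.univ.prod hD).nullMeasurableSet ?_
    rintro ⟨x, y⟩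
    obtain ⟨δ, hδ, huniq⟩ := hstrict y
    refine ⟨δ, ⟨Set.mem_univ _, hδ⟩, fun δ' h' => huniq δ' h'.2⟩
  have hinv : ∀ (δ : Δ) (z : G × G), Φ (δ • z) = Φ z := fun δ z => hΦ δ z.1 z.2
  have hint' : IntegrableOn Φ ((Set.univ : Set G) ×ˢ D) (μ.prod μ) :=
    (hA.integrableOn_iff hB hinv).1 hint
  have hEq := hA.setIntegral_eq hB hinv
  rw [setIntegral_prod Φ hint, setIntegral_prod Φ hint'] at hEq
  simp only [Measure.restrict_univ] at hEq
  rw [hEq]
  -- swap the order of integration on `G × D`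
  have hint'' : Integrable (fun z : G × G => Φ z) (μ.prod (μ.restrict D)) := by
    have := hint'
    unfold IntegrableOn at this
    rwa [← Measure.prod_restrict, Measure.restrict_univ] at this
  exact integral_integral_swap (f := fun x y => Φ (x, y)) hint''

end Abstract

variable {K : Type} [Field K] [NumberField K]

open scoped Classical

/-- A number field is countable. -/
theorem countable_field981 (K : Type) [Field K] [NumberField K] : Countable K :=
  (Module.finBasis ℚ K).equivFun.injective.countable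

theorem countable_gl981 (K : Type) [Field K] [NumberField K] : Countable (GL (Fin 2) K) := by
  have := countable_field981 K
  have : Countable (Matrix (Fin 2) (Fin 2) K) := inferInstanceAs (Countable (Fin 2 → Fin 2 → K))
  exact (Units.val_injective (α := Matrix (Fin 2) (Fin 2) K)).countable

omit [NumberField K] in
/-- Every real number is in the image of `extensionEmbedding`. -/
theorem exists_real981 (w : InfinitePlace K) (r : ℝ) :
    ∃ c : w.Completion, InfinitePlace.Completion.extensionEmbedding w c = (r : ℂ) := by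
  rcases InfinitePlace.isReal_or_isComplex w with hw | hw
  · obtain ⟨c, hc⟩ := InfinitePlace.Completion.surjective_extensionEmbeddingOfIsReal hw r
    refine ⟨c, ?_⟩
    rw [← InfinitePlace.Completion.extensionEmbeddingOfIsReal_apply hw, hc]
  · exact InfinitePlace.Completion.surjective_extensionEmbedding_of_isComplex hw (r : ℂ)

/-- The idele which is `c` at the infinite place `w` and `1` elsewhere. -/
def idele981 (w : InfinitePlace K) (c : w.Completion) (hc : c ≠ 0) : (Adl K)ˣ where
  val := (Pi.mulSingle w c, 1)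
  inv := (Pi.mulSingle w c⁻¹, 1)
  val_inv := by
    refine Prod.ext ?_ (mul_one _)
    change Pi.mulSingle w c * Pi.mulSingle w c⁻¹ = 1
    rw [← Pi.mulSingle_mul, mul_inv_cancel₀ hc, Pi.mulSingle_one]
  inv_val := by
    refine Prod.ext ?_ (mul_one _)
    change Pi.mulSingle w c⁻¹ * Pi.mulSingle w c = 1
    rw [← Pi.mulSingle_mul, inv_mul_cancel₀ hc, Pi.mulSingle_one]

theorem idele981_fst (w : InfinitePlace K) (c : w.Completion) (hc : c ≠ 0) :
    ((idele981 w c hc : (Adl K)ˣ) : Adl K).1 = Pi.mulSingle w c := rfl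

theorem idele981_snd (w : InfinitePlace K) (c : w.Completion) (hc : c ≠ 0) :
    ((idele981 w c hc : (Adl K)ˣ) : Adl K).2 = 1 := rfl

/-- The module of `idele981`. -/
theorem adNorm_idele981 (w : InfinitePlace K) (c : w.Completion) (hc : c ≠ 0) :
    T1.adNorm K ((idele981 w c hc : (Adl K)ˣ) : Adl K) = ‖c‖ ^ w.mult := by
  unfold T1.adNorm
  rw [idele981_fst, idele981_snd]
  have h1 : (∏ᶠ v : HeightOneSpectrum (𝓞 K),
      ‖((1 : FiniteAdeleRing (𝓞 K) K)) v‖) = 1 := by
    have : ∀ v : HeightOneSpectrum (𝓞 K), ‖((1 : FiniteAdeleRing (𝓞 K) K)) v‖ = 1 := by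
      intro v
      change ‖(1 : v.adicCompletion K)‖ = 1
      exact norm_one
    simp only [this]
    exact finprod_one
  rw [h1, mul_one]
  rw [Finset.prod_eq_single w]
  · rw [Pi.mulSingle_eq_same]
  · intro w' _ hne
    rw [Pi.mulSingle_eq_of_ne hne, norm_one, one_pow]
  · intro h
    exact absurd (Finset.mem_univ w) h


/-- The scalar matrix of `idele981`. -/
def zmat981 (w : InfinitePlace K) (c : w.Completion) (hc : c ≠ 0) : G K :=
  Matrix.GeneralLinearGroup.scalar (Fin 2) (idele981 w c hc)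

theorem zmat981_entry (w : InfinitePlace K) (c : w.Completion) (hc : c ≠ 0) (i j : Fin 2) :
    (zmat981 w c hc : Matrix (Fin 2) (Fin 2) (Adl K)) i j
      = if i = j then ((idele981 w c hc : (Adl K)ˣ) : Adl K) else 0 := by
  unfold zmat981
  rw [Matrix.GeneralLinearGroup.coe_scalar, Matrix.scalar_apply, Matrix.diagonal_apply]

theorem zmat981_central (w : InfinitePlace K) (c : w.Completion) (hc : c ≠ 0) (g : G K) :
    zmat981 w c hc * g = g * zmat981 w c hc :=
  Matrix.GeneralLinearGroup.scalar_commute _ g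

theorem zmat981_local (w : InfinitePlace K) (c : w.Completion) (hc : c ≠ 0) :
    IsLocalAtInf w (zmat981 w c hc) := by
  refine ⟨fun w' hw' i j => ?_, fun v => ?_⟩
  · rw [zmat981_entry]
    by_cases hij : i = j
    · rw [if_pos hij, idele981_fst, Pi.mulSingle_eq_of_ne hw', hij, Matrix.one_apply_eq]
    · rw [if_neg hij, Matrix.one_apply_ne hij]
      rfl
  · unfold TrivAtFin finComp
    funext i j
    rw [zmat981_entry]
    by_cases hij : i = j
    · rw [if_pos hij, idele981_snd, hij, Matrix.one_apply_eq]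
      rfl
    · rw [if_neg hij, Matrix.one_apply_ne hij]
      rfl

theorem zmat981_archPos (w : InfinitePlace K) (c : w.Completion) (hc : c ≠ 0) (r : ℝ)
    (hr : 0 < r) (hcr : InfinitePlace.Completion.extensionEmbedding w c = (r : ℂ)) :
    IsArchPosScalar w (zmat981 w c hc) := by
  refine ⟨zmat981_local w c hc, r, hr, ?_⟩
  funext i j
  unfold infComp
  rw [zmat981_entry, Matrix.diagonal_apply]
  by_cases hij : i = j
  · rw [if_pos hij, if_pos hij, idele981_fst, Pi.mulSingle_eq_same, hcr]
  · rw [if_neg hij, if_neg hij]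
    exact map_zero _

/-- The module of the determinant. -/
def nrm981 (g : G K) : ℝ := T1.adNorm K (Matrix.det (g : Matrix (Fin 2) (Fin 2) (Adl K)))

theorem nrm981_eq (g : G K) :
    nrm981 g = T1.adNorm K ((Matrix.GeneralLinearGroup.det g : (Adl K)ˣ) : Adl K) := rfl

theorem nrm981_pos (hN : T1.AdNormC K) (g : G K) : 0 < nrm981 g := by
  rw [nrm981_eq]
  exact hN.1 _

theorem nrm981_mul (hN : T1.AdNormC K) (g h : G K) : nrm981 (g * h) = nrm981 g * nrm981 h := by
  rw [nrm981_eq, nrm981_eq, nrm981_eq, map_mul]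
  exact hN.2.1 _ _

theorem nrm981_one (hN : T1.AdNormC K) : nrm981 (1 : G K) = 1 := by
  have h := nrm981_mul hN (1 : G K) 1
  rw [mul_one] at h
  have hp := nrm981_pos hN (1 : G K)
  have : nrm981 (1 : G K) * (nrm981 (1 : G K) - 1) = 0 := by linarith
  rcases mul_eq_zero.1 this with h0 | h0
  · exact absurd h0 hp.ne'
  · linarith

theorem nrm981_rat (hN : T1.AdNormC K) (γ : GL (Fin 2) K) : nrm981 (T1.ratG K γ) = 1 := by
  rw [nrm981_eq]
  unfold T1.ratG
  rw [Matrix.GeneralLinearGroup.map_det]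
  exact hN.2.2.1 (Matrix.GeneralLinearGroup.det γ)

theorem nrm981_zpow (hN : T1.AdNormC K) (g : G K) (m : ℤ) : nrm981 (g ^ m) = nrm981 g ^ m := by
  have hnat : ∀ n : ℕ, nrm981 (g ^ n) = nrm981 g ^ n := by
    intro n
    induction n with
    | zero => rw [pow_zero, pow_zero]; exact nrm981_one hN
    | succ n ih => rw [pow_succ, pow_succ, nrm981_mul hN, ih]
  have hinv : ∀ h : G K, nrm981 h⁻¹ = (nrm981 h)⁻¹ := by
    intro h
    have h1 := nrm981_mul hN h h⁻¹
    rw [mul_inv_cancel, nrm981_one hN] at h1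
    exact eq_inv_of_mul_eq_one_right h1.symm
  cases m with
  | ofNat n => simpa using hnat n
  | negSucc n =>
    rw [zpow_negSucc, zpow_negSucc, hinv, hnat]

theorem nrm981_zmat (w : InfinitePlace K) (c : w.Completion) (hc : c ≠ 0) (hN : T1.AdNormC K) :
    nrm981 (zmat981 w c hc) = (‖c‖ ^ w.mult) ^ 2 := by
  rw [nrm981_eq]
  unfold zmat981
  rw [Matrix.GeneralLinearGroup.det_scalar, Fintype.card_fin, pow_two, pow_two, hN.2.1,
    adNorm_idele981]

/-- The central element `z₀` of module `2`, an archimedean positive scalar at one place. -/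
theorem exists_z981 (hN : T1.AdNormC K) :
    ∃ (w : InfinitePlace K) (z : G K), IsArchPosScalar w z ∧ (∀ g : G K, z * g = g * z) ∧
      nrm981 z = 2 := by
  obtain ⟨w⟩ : Nonempty (InfinitePlace K) := inferInstance
  set r : ℝ := (2 : ℝ) ^ ((1 : ℝ) / (2 * (w.mult : ℝ))) with hr
  have hmult : (0 : ℝ) < (w.mult : ℝ) := by
    have : 0 < w.mult := InfinitePlace.mult_pos
    exact_mod_cast this
  have hr0 : 0 < r := Real.rpow_pos_of_pos (by norm_num) _
  obtain ⟨c, hc⟩ := exists_real981 w r
  have hnorm : ‖c‖ = r := by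
    have h := (InfinitePlace.Completion.isometry_extensionEmbedding w).norm_map_of_map_zero
      (map_zero _) c
    rw [← h, hc, Complex.norm_real, Real.norm_eq_abs, abs_of_pos hr0]
  have hc0 : c ≠ 0 := by
    intro h0
    rw [h0, norm_zero] at hnorm
    exact hr0.ne' hnorm.symm
  refine ⟨w, zmat981 w c hc0, zmat981_archPos w c hc0 r hr0 hc, zmat981_central w c hc0, ?_⟩
  rw [nrm981_zmat w c hc0 hN, hnorm, ← pow_mul, hr, ← Real.rpow_natCast, ← Real.rpow_mul (by norm_num)]
  have : (1 : ℝ) / (2 * (w.mult : ℝ)) * ((w.mult * 2 : ℕ) : ℝ) = 1 := by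
    push_cast
    field_simp
  rw [this, Real.rpow_one]


/-- The subgroup `GL₂(K) · z^ℤ` of `GL₂(𝔸_K)`, `z` central. -/
def delta981 (z : G K) (hz : ∀ g : G K, z * g = g * z) : Subgroup (G K) where
  carrier := {g | ∃ (γ : GL (Fin 2) K) (m : ℤ), g = T1.ratG K γ * z ^ m}
  one_mem' := ⟨1, 0, by rw [map_one, zpow_zero, mul_one]⟩
  mul_mem' := by
    rintro _ _ ⟨γ, m, rfl⟩ ⟨γ', m', rfl⟩
    refine ⟨γ * γ', m + m', ?_⟩
    have hc : z ^ m * T1.ratG K γ' = T1.ratG K γ' * z ^ m :=
      (Commute.zpow_left (hz (T1.ratG K γ')) m)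
    rw [map_mul, zpow_add]
    calc T1.ratG K γ * z ^ m * (T1.ratG K γ' * z ^ m')
        = T1.ratG K γ * (z ^ m * T1.ratG K γ') * z ^ m' := by group
      _ = T1.ratG K γ * (T1.ratG K γ' * z ^ m) * z ^ m' := by rw [hc]
      _ = T1.ratG K γ * T1.ratG K γ' * (z ^ m * z ^ m') := by group
  inv_mem' := by
    rintro _ ⟨γ, m, rfl⟩
    refine ⟨γ⁻¹, -m, ?_⟩
    have hc : z ^ (-m) * T1.ratG K γ⁻¹ = T1.ratG K γ⁻¹ * z ^ (-m) :=
      (Commute.zpow_left (hz (T1.ratG K γ⁻¹)) (-m))
    rw [mul_inv_rev, ← zpow_neg, ← map_inv, hc]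

theorem mem_delta981 (z : G K) (hz : ∀ g : G K, z * g = g * z) (g : G K) :
    g ∈ delta981 z hz ↔ ∃ (γ : GL (Fin 2) K) (m : ℤ), g = T1.ratG K γ * z ^ m := Iff.rfl

theorem countable_delta981 (z : G K) (hz : ∀ g : G K, z * g = g * z) :
    Countable (delta981 z hz) := by
  have := countable_gl981 K
  have h : ((delta981 z hz : Subgroup (G K)) : Set (G K))
      = Set.range (fun p : GL (Fin 2) K × ℤ => T1.ratG K p.1 * z ^ p.2) := by
    ext g
    constructor
    · rintro ⟨γ, m, rfl⟩
      exact ⟨(γ, m), rfl⟩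
    · rintro ⟨⟨γ, m⟩, rfl⟩
      exact ⟨γ, m, rfl⟩
  have hc : ((delta981 z hz : Subgroup (G K)) : Set (G K)).Countable := by
    rw [h]
    exact Set.countable_range _
  exact hc.to_subtype

attribute [local instance] Fermat.Agent.LT.T2.borelG

/-- The frame domain is a strict fundamental domain of `GL₂(K) · z^ℤ` in `GL₂(𝔸_K)`. -/
theorem strict981 (hN : T1.AdNormC K) (F : Frame K) (z : G K)
    (hz : ∀ g : G K, z * g = g * z) (hz2 : nrm981 z = 2) (g : G K) :
    ∃! δ : delta981 z hz, ((δ : G K)) * g ∈ F.D := by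
  have hslab : ∀ x : G K, x ∈ T1.slab K ↔ 1 ≤ nrm981 x ∧ nrm981 x < 2 := fun x => Iff.rfl
  have hpos := nrm981_pos hN g
  obtain ⟨n, hn1, hn2⟩ := exists_mem_Ico_zpow hpos (by norm_num : (1 : ℝ) < 2)
  have h2pos : ∀ k : ℤ, (0 : ℝ) < 2 ^ k := fun k => zpow_pos (by norm_num) k
  -- `z ^ (-n) * g` lies in the slab
  have hnorm : ∀ k : ℤ, nrm981 (z ^ k * g) = 2 ^ k * nrm981 g := by
    intro k
    rw [nrm981_mul hN, nrm981_zpow hN, hz2]
  have hmem : z ^ (-n) * g ∈ T1.slab K := by
    rw [hslab, hnorm, zpow_neg]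
    constructor
    · rw [← div_eq_inv_mul, le_div_iff₀ (h2pos n), one_mul]
      exact hn1
    · rw [← div_eq_inv_mul, div_lt_iff₀ (h2pos n)]
      rw [zpow_add_one₀ (by norm_num : (2 : ℝ) ≠ 0), mul_comm] at hn2
      exact hn2
  obtain ⟨γ, hγ, hγu⟩ := F.strict _ hmem
  refine ⟨⟨T1.ratG K γ * z ^ (-n), γ, -n, rfl⟩, ?_, ?_⟩
  · change T1.ratG K γ * z ^ (-n) * g ∈ F.D
    rw [mul_assoc]
    exact hγ
  · rintro ⟨δ, γ', m, rfl⟩ hδ
    change T1.ratG K γ' * z ^ m * g ∈ F.D at hδ
    rw [mul_assoc] at hδ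
    have hs := F.sub hδ
    rw [hslab, nrm981_mul hN, nrm981_rat hN, one_mul, hnorm] at hs
    -- `m = -n`
    have hm : m = -n := by
      by_contra hne
      rcases lt_or_gt_of_ne hne with hlt | hgt
      · -- `m + 1 ≤ -n`, so `2^m t ≤ 2^(-n-1) t < 1`
        have h1 : m + 1 ≤ -n := hlt
        have h2 : (2 : ℝ) ^ (m + 1) ≤ 2 ^ (-n) := zpow_le_zpow_right₀ (by norm_num) h1
        rw [zpow_add_one₀ (by norm_num : (2 : ℝ) ≠ 0)] at h2
        have h3 : (2 : ℝ) ^ (-n) * nrm981 g < 2 := by
          have := (hslab _).1 hmem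
          rw [hnorm] at this
          exact this.2
        have h4 : (2 : ℝ) ^ m * 2 * nrm981 g ≤ 2 ^ (-n) * nrm981 g :=
          mul_le_mul_of_nonneg_right h2 hpos.le
        nlinarith [hs.1]
      · have h1 : -n + 1 ≤ m := hgt
        have h2 : (2 : ℝ) ^ (-n + 1) ≤ 2 ^ m := zpow_le_zpow_right₀ (by norm_num) h1
        rw [zpow_add_one₀ (by norm_num : (2 : ℝ) ≠ 0)] at h2
        have h3 : 1 ≤ (2 : ℝ) ^ (-n) * nrm981 g := by
          have := (hslab _).1 hmem
          rw [hnorm] at this
          exact this.1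
        have h4 : (2 : ℝ) ^ (-n) * 2 * nrm981 g ≤ 2 ^ m * nrm981 g :=
          mul_le_mul_of_nonneg_right h2 hpos.le
        nlinarith [hs.2]
    subst hm
    have := hγu γ' hδ
    subst this
    rfl


/-- A cusp function is left invariant under `GL₂(K) · z^ℤ`. -/
theorem inv_delta981 {𝔫 : Ideal (𝓞 K)} {φ : G K → ℂ} (hφ : IsCuspFn 𝔫 φ)
    (w : InfinitePlace K) (z : G K) (hzw : IsArchPosScalar w z)
    (hz : ∀ g : G K, z * g = g * z) (δ : delta981 z hz) (g : G K) :
    φ ((δ : G K) * g) = φ g := by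
  obtain ⟨δ, γ, m, rfl⟩ := δ
  change φ (T1.ratG K γ * z ^ m * g) = φ g
  have h1 : ∀ x : G K, φ (x * z) = φ x := fun x => hφ.arch_scalar w z hzw x
  have h2 : ∀ x : G K, φ (x * z⁻¹) = φ x := by
    intro x
    have := h1 (x * z⁻¹)
    rw [inv_mul_cancel_right] at this
    exact this.symm
  have hnat : ∀ (n : ℕ) (x : G K), φ (x * z ^ n) = φ x := by
    intro n
    induction n with
    | zero => intro x; rw [pow_zero, mul_one]
    | succ n ih => intro x; rw [pow_succ, ← mul_assoc, h1, ih]
  have hnat' : ∀ (n : ℕ) (x : G K), φ (x * (z⁻¹) ^ n) = φ x := by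
    intro n
    induction n with
    | zero => intro x; rw [pow_zero, mul_one]
    | succ n ih => intro x; rw [pow_succ, ← mul_assoc, h2, ih]
  have hint : ∀ (k : ℤ) (x : G K), φ (x * z ^ k) = φ x := by
    intro k x
    cases k with
    | ofNat n => simpa using hnat n x
    | negSucc n =>
      rw [zpow_negSucc, ← inv_pow]
      exact hnat' (n + 1) x
  have hc : z ^ m * g = g * z ^ m := Commute.zpow_left (hz g) m
  rw [mul_assoc, hc]
  unfold T1.ratG
  rw [hφ.left_inv, hint]

/-- **T2.02c** (helper981): the adjoint of `conv F f` on the cusp functions is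
`conv F (adj f)`. -/
theorem leaf02c_981 (K : Type) [Field K] [NumberField K] : H228.Leaf02c K := by
  intro hT1 𝔫 _ _ _ F f φ ψ hf hφ hψ
  obtain ⟨-, hLC, hT2, hSC⟩ := hT1.locComp
  have := hLC
  have := hT2
  have := hSC
  have : BorelSpace (G K) := ⟨rfl⟩
  have := F.haar
  obtain ⟨w, z, hzw, hzc, hz2⟩ := exists_z981 hT1.adNorm
  have := countable_delta981 z hzc
  have : IsFiniteMeasure (F.μ.restrict F.D) :=
    ⟨by rw [Measure.restrict_apply_univ]; exact F.fin⟩
  set Φ : G K × G K → ℂ := fun p => φ p.2 * f (p.1⁻¹ * p.2) * (starRingEnd ℂ) (ψ p.1) with hΦ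
  -- invariance
  have hΦinv : ∀ (δ : delta981 z hzc) (x y : G K),
      Φ ((δ : G K) * x, (δ : G K) * y) = Φ (x, y) := by
    intro δ x y
    simp only [hΦ]
    rw [inv_delta981 hφ w z hzw hzc δ y, inv_delta981 hψ w z hzw hzc δ x]
    congr 3
    group
  -- continuity, bounds
  have hΦcont : Continuous Φ := by
    simp only [hΦ]
    have h1 : Continuous fun p : G K × G K => φ p.2 := hφ.cont.comp continuous_snd
    have h2 : Continuous fun p : G K × G K => f (p.1⁻¹ * p.2) :=
      hf.cont.comp ((continuous_inv.comp continuous_fst).mul continuous_snd)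
    have h3 : Continuous fun p : G K × G K => (starRingEnd ℂ) (ψ p.1) :=
      Complex.continuous_conj.comp (hψ.cont.comp continuous_fst)
    exact (h1.mul h2).mul h3
  obtain ⟨Cφ, hCφ⟩ := hφ.bdd
  obtain ⟨Cψ, hCψ⟩ := hψ.bdd
  have hCφ0 : 0 ≤ Cφ := le_trans (norm_nonneg _) (hCφ 1)
  have hCψ0 : 0 ≤ Cψ := le_trans (norm_nonneg _) (hCψ 1)
  have hfint : Integrable f F.μ := hf.cont.integrable_of_hasCompactSupport hf.cpt
  -- integrability on `D × G`
  have hint : IntegrableOn Φ (F.D ×ˢ (Set.univ : Set (G K))) (F.μ.prod F.μ) := by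
    unfold IntegrableOn
    rw [← Measure.prod_restrict, Measure.restrict_univ]
    have hg0 : Integrable (fun p : G K × G K => Cφ * Cψ * ‖f p.2‖)
        ((F.μ.restrict F.D).prod F.μ) :=
      ((hfint.norm.const_mul (Cφ * Cψ)).comp_snd (F.μ.restrict F.D))
    have hS := measurePreserving_prod_inv_mul (F.μ.restrict F.D) F.μ
    have hg1 : Integrable ((fun p : G K × G K => Cφ * Cψ * ‖f p.2‖) ∘
        (fun z : G K × G K => (z.1, z.1⁻¹ * z.2))) ((F.μ.restrict F.D).prod F.μ) :=
      (hS.integrable_comp hg0.aestronglyMeasurable).2 hg0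
    refine hg1.mono' hΦcont.aestronglyMeasurable (Filter.Eventually.of_forall fun p => ?_)
    simp only [hΦ, Function.comp_apply]
    rw [norm_mul, norm_mul, RCLike.norm_conj]
    calc ‖φ p.2‖ * ‖f (p.1⁻¹ * p.2)‖ * ‖ψ p.1‖
        ≤ Cφ * ‖f (p.1⁻¹ * p.2)‖ * Cψ := by
          apply mul_le_mul _ (hCψ _) (norm_nonneg _)
          · exact mul_nonneg hCφ0 (norm_nonneg _)
          · exact mul_le_mul_of_nonneg_right (hCφ _) (norm_nonneg _)
      _ = Cφ * Cψ * ‖f (p.1⁻¹ * p.2)‖ := by ring
  have key := unfold981 F.μ (delta981 z hzc) F.D F.meas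
    (strict981 hT1.adNorm F z hzc hz2) Φ hΦinv hint
  -- the two sides
  have hL : pair F (conv F f φ) ψ = ∫ x in F.D, ∫ y, Φ (x, y) ∂F.μ ∂F.μ := by
    unfold pair conv
    refine integral_congr_ae (Filter.Eventually.of_forall fun x => ?_)
    simp only [hΦ]
    rw [integral_mul_const]
    congr 1
    have := integral_mul_left_eq_self (μ := F.μ) (fun y => φ y * f (x⁻¹ * y)) x
    rw [← this]
    refine integral_congr_ae (Filter.Eventually.of_forall fun h => ?_)
    simp only [inv_mul_cancel_left]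
  have hR : pair F φ (conv F (adj f) ψ) = ∫ y in F.D, ∫ x, Φ (x, y) ∂F.μ ∂F.μ := by
    unfold pair conv adj
    refine integral_congr_ae (Filter.Eventually.of_forall fun x => ?_)
    simp only [hΦ]
    rw [← integral_conj, ← integral_const_mul]
    have := integral_mul_left_eq_self (μ := F.μ)
      (fun y => φ x * f (y⁻¹ * x) * (starRingEnd ℂ) (ψ y)) x
    rw [← this]
    refine integral_congr_ae (Filter.Eventually.of_forall fun h => ?_)
    simp only [mul_inv_rev, inv_mul_cancel_right, map_mul, Complex.conj_conj]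
    ring
  rw [hL, hR, key]

end Fermat.Agent.LT.T2.H981
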