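import Mathlib
import Fermat.Agent.LT.T2.SpecTau
import Fermat.Agent.LT.T2.H981.ConvAdj

/-!
# Row LT, tower T2: the adjoint of `conv F f`, CORE form and `T`-form (helper981)

OFF-MAIN.  Asset for `T2.22 LeafT02` (`ConvCuspT`, clause 5) of `Fermat/Agent/LT/T2/SpecTau.lean`
(helper130@e2e090185, sha256 `4d2b0fc2…`).

* `convAdj_core981`: for a frame `F`, a central `z` with `‖det z‖_𝔸 = 2`, `f` continuous with
  compact support and `φ`, `ψ` continuous, bounded, left invariant under `GL₂(K)` and invariant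
  under `z`: `pair F (conv F f φ) ψ = pair F φ (conv F (adj f) ψ)`.
* `ray_central981`, `ray_nrm981`: a ray generator (`IsRayGen`) is central of module `2`.
* `convAdjT_981`: clause 5 of `ConvCuspT K 𝔫 τ`, for every `τ` (no hypothesis on `τ`).
-/

set_option autoImplicit false

open IsDedekindDomain NumberField MeasureTheory AutomorphicForm
open Fermat.Agent.LT.H556.A0
open Fermat.Agent.LT

noncomputable section

namespace Fermat.Agent.LT.T2.H981

variable {K : Type} [Field K] [NumberField K]

attribute [local instance] Fermat.Agent.LT.T2.borelG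

/-- A function left invariant under `GL₂(K)` and invariant under the central `z` is left
invariant under `GL₂(K) · z^ℤ`. -/
theorem inv_delta_core981 {φ : G K → ℂ}
    (hΓ : ∀ (γ : GL (Fin 2) K) (g : G K), φ (T1.ratG K γ * g) = φ g)
    (z : G K) (hz : ∀ g : G K, z * g = g * z) (h1 : ∀ g : G K, φ (g * z) = φ g)
    (δ : delta981 z hz) (g : G K) :
    φ ((δ : G K) * g) = φ g := by
  obtain ⟨δ, γ, m, rfl⟩ := δ
  change φ (T1.ratG K γ * z ^ m * g) = φ g
  have h2 : ∀ x : G K, φ (x * z⁻¹) = φ x := by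
    intro x
    have := h1 (x * z⁻¹)
    rw [inv_mul_cancel_right] at this
    exact this.symm
  have hnat : ∀ (n : ℕ) (x : G K), φ (x * z ^ n) = φ x := by
    intro n
    induction n with
    | zero => intro x; rw [pow_zero, mul_one]
    | succ n ih => intro x; rw [pow_succ, ← mul_assoc, h1, ih]
  have hnat' : ∀ (n : ℕ) (x : G K), φ (x * (z⁻¹) ^ n) = φ x := by
    intro n
    induction n with
    | zero => intro x; rw [pow_zero, mul_one]
    | succ n ih => intro x; rw [pow_succ, ← mul_assoc, h2, ih]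
  have hint : ∀ (k : ℤ) (x : G K), φ (x * z ^ k) = φ x := by
    intro k x
    cases k with
    | ofNat n => simpa using hnat n x
    | negSucc n =>
      rw [zpow_negSucc, ← inv_pow]
      exact hnat' (n + 1) x
  have hc : z ^ m * g = g * z ^ m := Commute.zpow_left (hz g) m
  rw [mul_assoc, hc, hΓ, hint]

/-- **CORE**: the adjoint of `conv F f` is `conv F (adj f)` on the continuous bounded functions
which are left invariant under `GL₂(K)` and invariant under a central `z` of module `2`. -/
theorem convAdj_core981 (hLC : T1.LocCompC K) (hN : T1.AdNormC K) (F : Frame K) (z : G K)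
    (hzc : ∀ g : G K, z * g = g * z) (hz2 : nrm981 z = 2) (f φ ψ : G K → ℂ)
    (hfc : Continuous f) (hfs : HasCompactSupport f)
    (hφc : Continuous φ) (hφb : ∃ C : ℝ, ∀ g : G K, ‖φ g‖ ≤ C)
    (hφΓ : ∀ (γ : GL (Fin 2) K) (g : G K), φ (T1.ratG K γ * g) = φ g)
    (hφz : ∀ g : G K, φ (g * z) = φ g)
    (hψc : Continuous ψ) (hψb : ∃ C : ℝ, ∀ g : G K, ‖ψ g‖ ≤ C)
    (hψΓ : ∀ (γ : GL (Fin 2) K) (g : G K), ψ (T1.ratG K γ * g) = ψ g)
    (hψz : ∀ g : G K, ψ (g * z) = ψ g) :
    pair F (conv F f φ) ψ = pair F φ (conv F (adj f) ψ) := by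
  obtain ⟨-, hLC', hT2, hSC⟩ := hLC
  have := hLC'
  have := hT2
  have := hSC
  have : BorelSpace (G K) := ⟨rfl⟩
  have := F.haar
  have := countable_delta981 z hzc
  have : IsFiniteMeasure (F.μ.restrict F.D) :=
    ⟨by rw [Measure.restrict_apply_univ]; exact F.fin⟩
  set Φ : G K × G K → ℂ := fun p => φ p.2 * f (p.1⁻¹ * p.2) * (starRingEnd ℂ) (ψ p.1) with hΦ
  -- invariance
  have hΦinv : ∀ (δ : delta981 z hzc) (x y : G K),
      Φ ((δ : G K) * x, (δ : G K) * y) = Φ (x, y) := by
    intro δ x y
    simp only [hΦ]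
    rw [inv_delta_core981 hφΓ z hzc hφz δ y, inv_delta_core981 hψΓ z hzc hψz δ x]
    congr 3
    group
  -- continuity, bounds
  have hΦcont : Continuous Φ := by
    simp only [hΦ]
    have h1 : Continuous fun p : G K × G K => φ p.2 := hφc.comp continuous_snd
    have h2 : Continuous fun p : G K × G K => f (p.1⁻¹ * p.2) :=
      hfc.comp ((continuous_inv.comp continuous_fst).mul continuous_snd)
    have h3 : Continuous fun p : G K × G K => (starRingEnd ℂ) (ψ p.1) :=
      Complex.continuous_conj.comp (hψc.comp continuous_fst)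
    exact (h1.mul h2).mul h3
  obtain ⟨Cφ, hCφ⟩ := hφb
  obtain ⟨Cψ, hCψ⟩ := hψb
  have hCφ0 : 0 ≤ Cφ := le_trans (norm_nonneg _) (hCφ 1)
  have hfint : Integrable f F.μ := hfc.integrable_of_hasCompactSupport hfs
  -- integrability on `D × G`
  have hint : IntegrableOn Φ (F.D ×ˢ (Set.univ : Set (G K))) (F.μ.prod F.μ) := by
    unfold IntegrableOn
    rw [← Measure.prod_restrict, Measure.restrict_univ]
    have hg0 : Integrable (fun p : G K × G K => Cφ * Cψ * ‖f p.2‖)
        ((F.μ.restrict F.D).prod F.μ) :=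
      ((hfint.norm.const_mul (Cφ * Cψ)).comp_snd (F.μ.restrict F.D))
    have hS := measurePreserving_prod_inv_mul (F.μ.restrict F.D) F.μ
    have hg1 : Integrable ((fun p : G K × G K => Cφ * Cψ * ‖f p.2‖) ∘
        (fun z : G K × G K => (z.1, z.1⁻¹ * z.2))) ((F.μ.restrict F.D).prod F.μ) :=
      (hS.integrable_comp hg0.aestronglyMeasurable).2 hg0
    refine hg1.mono' hΦcont.aestronglyMeasurable (Filter.Eventually.of_forall fun p => ?_)
    simp only [hΦ, Function.comp_apply]
    rw [norm_mul, norm_mul, RCLike.norm_conj]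
    calc ‖φ p.2‖ * ‖f (p.1⁻¹ * p.2)‖ * ‖ψ p.1‖
        ≤ Cφ * ‖f (p.1⁻¹ * p.2)‖ * Cψ := by
          apply mul_le_mul _ (hCψ _) (norm_nonneg _)
          · exact mul_nonneg hCφ0 (norm_nonneg _)
          · exact mul_le_mul_of_nonneg_right (hCφ _) (norm_nonneg _)
      _ = Cφ * Cψ * ‖f (p.1⁻¹ * p.2)‖ := by ring
  have key := unfold981 F.μ (delta981 z hzc) F.D F.meas
    (strict981 hN F z hzc hz2) Φ hΦinv hint
  -- the two sides
  have hL : pair F (conv F f φ) ψ = ∫ x in F.D, ∫ y, Φ (x, y) ∂F.μ ∂F.μ := by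
    unfold pair conv
    refine integral_congr_ae (Filter.Eventually.of_forall fun x => ?_)
    simp only [hΦ]
    rw [integral_mul_const]
    congr 1
    have := integral_mul_left_eq_self (μ := F.μ) (fun y => φ y * f (x⁻¹ * y)) x
    rw [← this]
    refine integral_congr_ae (Filter.Eventually.of_forall fun h => ?_)
    simp only [inv_mul_cancel_left]
  have hR : pair F φ (conv F (adj f) ψ) = ∫ y in F.D, ∫ x, Φ (x, y) ∂F.μ ∂F.μ := by
    unfold pair conv adj
    refine integral_congr_ae (Filter.Eventually.of_forall fun x => ?_)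
    simp only [hΦ]
    rw [← integral_conj, ← integral_const_mul]
    have := integral_mul_left_eq_self (μ := F.μ)
      (fun y => φ x * f (y⁻¹ * x) * (starRingEnd ℂ) (ψ y)) x
    rw [← this]
    refine integral_congr_ae (Filter.Eventually.of_forall fun h => ?_)
    simp only [mul_inv_rev, inv_mul_cancel_right, map_mul, Complex.conj_conj]
    ring
  rw [hL, hR, key]

/-! ## Ray generators -/

/-- The matrix of a ray generator is the scalar matrix of an adele `c` with `c_w = t` at the
infinite places and `c_v = 1` at the finite places. -/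
theorem ray_scalar981 {r : G K} (hr : IsRayGen r) :
    ∃ (c : Adl K) (t : ℝ), 0 < t ∧ t ^ (2 * Module.finrank ℚ K) = 2 ∧
      (r : Matrix (Fin 2) (Fin 2) (Adl K)) = Matrix.scalar (Fin 2) c ∧
      (∀ w : InfinitePlace K, InfinitePlace.Completion.extensionEmbedding w (c.1 w) = (t : ℂ)) ∧
      ∀ v : HeightOneSpectrum (𝓞 K), c.2 v = 1 := by
  obtain ⟨hfin, t, ht, ht2, hinf⟩ := hr
  have hI : ∀ (w : InfinitePlace K) (i j : Fin 2),
      InfinitePlace.Completion.extensionEmbedding w
        (((r : Matrix (Fin 2) (Fin 2) (Adl K)) i j).1 w) = if i = j then (t : ℂ) else 0 := by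
    intro w i j
    have := congrFun (congrFun (hinf w) i) j
    rw [Matrix.diagonal_apply] at this
    exact this
  have hF : ∀ (v : HeightOneSpectrum (𝓞 K)) (i j : Fin 2),
      ((r : Matrix (Fin 2) (Fin 2) (Adl K)) i j).2 v
        = (1 : Matrix (Fin 2) (Fin 2) (v.adicCompletion K)) i j := by
    intro v i j
    exact congrFun (congrFun (hfin v) i) j
  refine ⟨(r : Matrix (Fin 2) (Fin 2) (Adl K)) 0 0, t, ht, ht2, ?_, ?_, ?_⟩
  · funext i j
    rw [Matrix.scalar_apply, Matrix.diagonal_apply]
    by_cases hij : i = j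
    · rw [if_pos hij]
      subst hij
      refine Prod.ext ?_ ?_
      · funext w
        apply (InfinitePlace.Completion.extensionEmbedding w).injective
        rw [hI, hI, if_pos rfl, if_pos rfl]
      · apply RestrictedProduct.ext
        intro v
        have a := hF v i i
        have b := hF v 0 0
        rw [Matrix.one_apply_eq] at a b
        exact a.trans b.symm
    · rw [if_neg hij]
      refine Prod.ext ?_ ?_
      · funext w
        apply (InfinitePlace.Completion.extensionEmbedding w).injective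
        rw [hI, if_neg hij]
        exact (map_zero _).symm
      · apply RestrictedProduct.ext
        intro v
        have a := hF v i j
        rw [Matrix.one_apply_ne hij] at a
        exact a
  · intro w
    rw [hI, if_pos rfl]
  · intro v
    rw [hF, Matrix.one_apply_eq]

/-- A ray generator is central. -/
theorem ray_central981 {r : G K} (hr : IsRayGen r) (g : G K) : r * g = g * r := by
  obtain ⟨c, t, -, -, hc, -, -⟩ := ray_scalar981 hr
  ext : 1
  rw [Units.val_mul, Units.val_mul, hc, Matrix.scalar_comm _ (Commute.all _)]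

/-- A ray generator has module `2`. -/
theorem ray_nrm981 {r : G K} (hr : IsRayGen r) : nrm981 r = 2 := by
  obtain ⟨c, t, ht, ht2, hc, hcI, hcF⟩ := ray_scalar981 hr
  unfold nrm981 T1.adNorm
  have hdet : Matrix.det (r : Matrix (Fin 2) (Fin 2) (Adl K)) = c * c := by
    rw [hc, Matrix.det_fin_two]
    simp [Matrix.scalar_apply]
  rw [hdet]
  have h1 : (∏ᶠ v : HeightOneSpectrum (𝓞 K), ‖(c * c).2 v‖) = 1 := by
    have : ∀ v : HeightOneSpectrum (𝓞 K), ‖(c * c).2 v‖ = 1 := by
      intro v
      have h : (c * c).2 v = c.2 v * c.2 v := rfl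
      rw [h, hcF, mul_one, norm_one]
    simp only [this]
    exact finprod_one
  rw [h1, mul_one]
  have h2 : ∀ w : InfinitePlace K, ‖(c * c).1 w‖ = t ^ 2 := by
    intro w
    have h : (c * c).1 w = c.1 w * c.1 w := rfl
    have hn : ‖c.1 w‖ = t := by
      have h := (InfinitePlace.Completion.isometry_extensionEmbedding w).norm_map_of_map_zero
        (map_zero _) (c.1 w)
      rw [← h, hcI, Complex.norm_real, Real.norm_eq_abs, abs_of_pos ht]
    rw [h, norm_mul, hn, pow_two]
  simp only [h2]
  rw [Finset.prod_pow_eq_pow_sum, InfinitePlace.sum_mult_eq, ← pow_mul, ht2]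

/-- **Clause 5 of `ConvCuspT`** (class of T5): the adjoint of `conv R.F f` on the automorphic
functions of the class `(𝔫, τ, r)` is `conv R.F (adj f)`. -/
theorem convAdjT_981 (hT1 : T1.T1Out K) (𝔫 : Ideal (𝓞 K)) (τ : G K → ℂ) (R : FrameR K)
    (f φ ψ : G K → ℂ) (hf : IsTestT 𝔫 τ f) (hφ : IsAutT 𝔫 τ R.r φ) (hψ : IsAutT 𝔫 τ R.r ψ) :
    pair R.F (conv R.F f φ) ψ = pair R.F φ (conv R.F (adj f) ψ) :=
  convAdj_core981 hT1.locComp hT1.adNorm R.F R.r (ray_central981 R.ray) (ray_nrm981 R.ray)
    f φ ψ hf.cont hf.cpt hφ.cont hφ.bdd hφ.left_inv hφ.ray hψ.cont hψ.bdd hψ.left_inv hψ.ray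

end Fermat.Agent.LT.T2.H981
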